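/-
S26lib / FinMap / FFMap  (helper1)  --  Project K (S26), block (P5b)

**The comorphism on function fields of a dominant morphism of integral schemes.**

* `map_genericPoint φ : φ (genericPoint X) = genericPoint Y` for dominant `φ`;
* `ffMap φ : K(Y) →+* K(X)`, with `toFF_stalkMap_ffMap : toFF X x (φ.stalkMap x a) = ffMap φ (toFF Y (φ x) a)`
  (compatibility with all the local homomorphisms) and `ffMap_germ` (compatibility with sections);
* `finite_ffMap` : `φ` finite ⟹ `K(X)` is a finite extension of `K(Y)`.
-/
import Mathlib
import Fermat.Agent.S26lib.Quad.LocEq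

set_option autoImplicit false
set_option linter.unusedSectionVars false

noncomputable section

namespace Fermat.Agent.S26lib.FinMap

open AlgebraicGeometry CategoryTheory TopologicalSpace Fermat.Agent.S26lib.Quad

universe u

variable {X Y : Scheme.{u}} [IsIntegral X] [IsIntegral Y] (φ : X ⟶ Y)

/-- a dominant morphism maps the generic point to the generic point -/
theorem map_genericPoint [IsDominant φ] : φ (genericPoint X) = genericPoint Y := by
  apply ((genericPoint_spec Y).eq _).symm
  have h := (genericPoint_spec X).image φ.continuous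
  rw [Set.image_univ, φ.denseRange.closure_range] at h
  exact h

theorem map_genericPoint_specializes [IsDominant φ] : φ (genericPoint X) ⤳ genericPoint Y :=
  specializes_of_eq (map_genericPoint φ)

/-- **the comorphism on function fields** -/
def ffMap [IsDominant φ] : Y.functionField →+* X.functionField :=
  (pbFF φ).comp (Y.presheaf.stalkSpecializes (map_genericPoint_specializes φ)).hom

theorem ffMap_apply [IsDominant φ] (b : Y.functionField) :
    ffMap φ b = pbFF φ (Y.presheaf.stalkSpecializes (map_genericPoint_specializes φ) b) := rfl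

theorem ffMap_injective [IsDominant φ] : Function.Injective (ffMap φ) :=
  (ffMap φ).injective

/-- **compatibility with the local homomorphisms** -/
theorem toFF_stalkMap_ffMap [IsDominant φ] (x : X) (a : Y.presheaf.stalk (φ x)) :
    toFF X x (φ.stalkMap x a) = ffMap φ (toFF Y (φ x) a) := by
  rw [toFF_stalkMap, ffMap_apply, toFF_eq]
  congr 1
  have := Y.presheaf.stalkSpecializes_comp (map_genericPoint_specializes φ)
    (generic_specializes Y (φ x))
  exact (congrArg (fun ψ => ψ.hom a) this).symm

/-- compatibility with sections -/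
theorem ffMap_germ [IsDominant φ] (V : Y.Opens) [Nonempty V] [Nonempty (φ ⁻¹ᵁ V)]
    (s : Γ(Y, V)) :
    ffMap φ (Y.germToFunctionField V s) = X.germToFunctionField (φ ⁻¹ᵁ V) (φ.app V s) := by
  have hx : genericPoint X ∈ φ ⁻¹ᵁ V :=
    ((genericPoint_spec X).mem_open_set_iff (φ ⁻¹ᵁ V).isOpen).mpr (by
      obtain ⟨⟨x, hx⟩⟩ := (inferInstance : Nonempty (φ ⁻¹ᵁ V))
      exact ⟨x, trivial, hx⟩)
  have h1 : X.germToFunctionField (φ ⁻¹ᵁ V) (φ.app V s) =
      φ.stalkMap (genericPoint X) (Y.presheaf.germ V (φ (genericPoint X)) hx s) :=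
    (φ.germ_stalkMap_apply V (genericPoint X) hx s).symm
  rw [h1, ffMap_apply]
  show pbFF φ _ = pbFF φ _
  congr 1
  have := Y.presheaf.germ_stalkSpecializes (U := V)
    (y := genericPoint Y) (((genericPoint_spec Y).mem_open_set_iff V.isOpen).mpr (by
      obtain ⟨⟨y, hy⟩⟩ := (inferInstance : Nonempty V)
      exact ⟨y, trivial, hy⟩)) (map_genericPoint_specializes φ)
  exact congrArg (fun ψ => ψ.hom s) this

end Fermat.Agent.S26lib.FinMap
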