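/-
S26lib / FinMap / Bridge  (helper1)  --  Project K (S26), block (P5b)

helper6's `Fermat.Agent.S26lib.ffMap φ h` (`S26lib/Grp/Degree.lean`) and `FinMap.ffMap φ` are the same
ring homomorphism.
-/
import Mathlib
import Fermat.Agent.S26lib.FinMap.FFMap
import Fermat.Agent.S26lib.Grp.Degree

set_option autoImplicit false
set_option linter.unusedSectionVars false

noncomputable section

namespace Fermat.Agent.S26lib.FinMap

open AlgebraicGeometry CategoryTheory TopologicalSpace

universe u

variable {X Y : Scheme.{u}} [IsIntegral X] [IsIntegral Y] (φ : X ⟶ Y)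

theorem isDominant_of_denseRange (h : DenseRange φ) : IsDominant φ := ⟨h⟩

/-- the two versions of the comorphism on function fields agree -/
theorem grp_ffMap_hom_eq (h : DenseRange φ) :
    (Fermat.Agent.S26lib.ffMap φ h).hom = @ffMap X Y _ _ φ ⟨h⟩ := rfl

theorem grp_ffMap_apply (h : DenseRange φ) (b : Y.functionField) :
    (Fermat.Agent.S26lib.ffMap φ h).hom b = @ffMap X Y _ _ φ ⟨h⟩ b := rfl

end Fermat.Agent.S26lib.FinMap
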