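/-
S26lib / FinMap / Dvr  (helper1)  --  Project K (S26), block (P5b)

**Pure commutative algebra: discrete valuation rings along a flat unramified local homomorphism.**

`R → S` a flat local homomorphism of local rings with `𝔪_R S = 𝔪_S` (e.g. the local homomorphism
of an étale morphism).  Then
* `dvd_of_map_dvd_map` : divisibility descends (faithful flatness);
* `isDiscreteValuationRing_of_flat_local` : `S` a DVR ⟹ `R` a DVR (no noetherian hypothesis);
* `irreducible_map_of_flat_local` : a uniformizer of `R` maps to a uniformizer of `S`;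
* `addVal_map_of_flat_local` : `v_S (f a) = v_R a` (ramification index `1`);
* `isDiscreteValuationRing_of_flat_local'` : `R` a DVR, `S` a noetherian domain ⟹ `S` a DVR.
-/
import Mathlib

set_option autoImplicit false
set_option linter.unusedSectionVars false
set_option linter.style.haveILetI false
set_option linter.overlappingInstances false

namespace Fermat.Agent.S26lib.FinMap

open IsLocalRing

section FlatLocal

variable {R S : Type*} [CommRing R] [CommRing S] [IsLocalRing R] [IsLocalRing S] [Algebra R S]
  [IsLocalHom (algebraMap R S)] [Module.Flat R S]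

theorem faithfullyFlat_of_flat_local : Module.FaithfullyFlat R S :=
  Module.FaithfullyFlat.of_flat_of_isLocalHom

theorem algebraMap_injective_of_flat_local : Function.Injective (algebraMap R S) := by
  haveI := faithfullyFlat_of_flat_local (R := R) (S := S)
  exact FaithfulSMul.algebraMap_injective R S

/-- descent of divisibility along a flat local homomorphism -/
theorem dvd_of_map_dvd_map {a b : R} (h : algebraMap R S a ∣ algebraMap R S b) : a ∣ b := by
  haveI := faithfullyFlat_of_flat_local (R := R) (S := S)
  have h1 : b ∈ ((Ideal.span {a}).map (algebraMap R S)).comap (algebraMap R S) := by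
    rw [Ideal.mem_comap, Ideal.map_span, Set.image_singleton, Ideal.mem_span_singleton]
    exact h
  rw [Ideal.comap_map_eq_self_of_faithfullyFlat] at h1
  exact Ideal.mem_span_singleton.mp h1

theorem isDomain_of_flat_local [IsDomain S] : IsDomain R :=
  (algebraMap_injective_of_flat_local (R := R) (S := S)).isDomain _

theorem isUnit_of_isUnit_map {a : R} (h : IsUnit (algebraMap R S a)) : IsUnit a :=
  IsLocalHom.map_nonunit a h

/-- a non-unit maps to a non-unit -/
theorem map_mem_maximalIdeal {a : R} (h : a ∈ maximalIdeal R) :
    algebraMap R S a ∈ maximalIdeal S := by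
  rw [mem_maximalIdeal, mem_nonunits_iff] at h ⊢
  exact fun hu => h (isUnit_of_isUnit_map hu)

variable [IsDomain S] [IsDiscreteValuationRing S]

/-- if `𝔪_R S = 𝔪_S` then some element of `𝔪_R` maps to a uniformizer of the DVR `S` -/
theorem exists_mem_maximalIdeal_irreducible_map
    (h : (maximalIdeal R).map (algebraMap R S) = maximalIdeal S) :
    ∃ t ∈ maximalIdeal R, Irreducible (algebraMap R S t) := by
  obtain ⟨π, hπ⟩ := IsDiscreteValuationRing.exists_irreducible S
  by_contra hcon
  push Not at hcon
  have hle : (maximalIdeal R).map (algebraMap R S) ≤ Ideal.span {π ^ 2} := by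
    rw [Ideal.map_le_iff_le_comap]
    intro t ht
    rw [Ideal.mem_comap, Ideal.mem_span_singleton]
    rcases eq_or_ne (algebraMap R S t) 0 with h0 | h0
    · rw [h0]; exact dvd_zero _
    obtain ⟨n, u, hu⟩ := IsDiscreteValuationRing.eq_unit_mul_pow_irreducible h0 hπ
    have hmem := map_mem_maximalIdeal (S := S) ht
    rcases n with _ | _ | n
    · exfalso
      rw [pow_zero, mul_one] at hu
      rw [mem_maximalIdeal, mem_nonunits_iff] at hmem
      exact hmem (hu ▸ u.isUnit)
    · exfalso
      refine hcon t ht ?_
      rw [hu, zero_add, pow_one]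
      exact (irreducible_units_mul u).mpr hπ
    · rw [hu]
      exact ⟨u * π ^ n, by ring⟩
  have hπmem : π ∈ Ideal.span {π ^ 2} := hle (h ▸ hπ.maximalIdeal_eq ▸ Ideal.mem_span_singleton_self π)
  obtain ⟨c, hc⟩ := Ideal.mem_span_singleton.mp hπmem
  have hπ0 : π ≠ 0 := hπ.ne_zero
  have : π * 1 = π * (π * c) := by rw [mul_one, ← mul_assoc, ← pow_two]; exact hc
  have h1 : (1 : S) = π * c := mul_left_cancel₀ hπ0 this
  exact hπ.not_isUnit (IsUnit.of_mul_eq_one _ h1.symm)

/-- **descent of DVRs**: `R → S` flat local with `𝔪_R S = 𝔪_S`, `S` a DVR ⟹ `R` is a DVR. -/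
theorem isDiscreteValuationRing_of_flat_local [IsDomain R]
    (h : (maximalIdeal R).map (algebraMap R S) = maximalIdeal S) :
    IsDiscreteValuationRing R := by
  obtain ⟨t, -, htS⟩ := exists_mem_maximalIdeal_irreducible_map h
  have htR : Irreducible t := htS.of_map
  apply IsDiscreteValuationRing.ofHasUnitMulPowIrreducibleFactorization
  refine ⟨t, htR, fun {x} hx => ?_⟩
  have hx' : algebraMap R S x ≠ 0 := fun h0 =>
    hx (algebraMap_injective_of_flat_local (R := R) (S := S) (h0.trans (map_zero _).symm))
  obtain ⟨n, u, hu⟩ := IsDiscreteValuationRing.eq_unit_mul_pow_irreducible hx' htS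
  have hdvd : t ^ n ∣ x := by
    apply dvd_of_map_dvd_map (S := S)
    rw [map_pow, hu]
    exact Dvd.intro_left _ rfl
  obtain ⟨y, rfl⟩ := hdvd
  have hy : IsUnit y := by
    apply isUnit_of_isUnit_map (S := S)
    have h2 : (algebraMap R S t) ^ n * algebraMap R S y = (algebraMap R S t) ^ n * u := by
      rw [← map_pow, ← map_mul, hu, map_pow, mul_comm]
    have h3 := mul_left_cancel₀ (pow_ne_zero n htS.ne_zero) h2
    rw [h3]; exact u.isUnit
  exact ⟨n, hy.unit, by simp⟩

variable [IsDomain R] [IsDiscreteValuationRing R]

/-- a uniformizer maps to a uniformizer -/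
theorem irreducible_map_of_flat_local
    (h : (maximalIdeal R).map (algebraMap R S) = maximalIdeal S) {t : R} (ht : Irreducible t) :
    Irreducible (algebraMap R S t) := by
  rw [IsDiscreteValuationRing.irreducible_iff_uniformizer, ← h, ht.maximalIdeal_eq, Ideal.map_span,
    Set.image_singleton]

/-- **ramification index one**: the valuations agree -/
theorem addVal_map_of_flat_local
    (h : (maximalIdeal R).map (algebraMap R S) = maximalIdeal S) (a : R) :
    IsDiscreteValuationRing.addVal S (algebraMap R S a) = IsDiscreteValuationRing.addVal R a := by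
  rcases eq_or_ne a 0 with rfl | ha
  · rw [map_zero, IsDiscreteValuationRing.addVal_zero, IsDiscreteValuationRing.addVal_zero]
  obtain ⟨t, ht⟩ := IsDiscreteValuationRing.exists_irreducible R
  obtain ⟨n, u, hu⟩ := IsDiscreteValuationRing.eq_unit_mul_pow_irreducible ha ht
  rw [IsDiscreteValuationRing.addVal_def a u ht n hu,
    IsDiscreteValuationRing.addVal_def (algebraMap R S a) (Units.map (algebraMap R S).toMonoidHom u)
      (irreducible_map_of_flat_local h ht) n (by rw [hu]; simp)]

end FlatLocal

section Ascent

variable {R S : Type*} [CommRing R] [CommRing S] [IsLocalRing R] [IsLocalRing S] [Algebra R S]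
  [IsLocalHom (algebraMap R S)] [Module.Flat R S]

/-- **ascent of DVRs**: `R → S` flat local with `𝔪_R S = 𝔪_S`, `R` a DVR, `S` a noetherian domain
⟹ `S` is a DVR. -/
theorem isDiscreteValuationRing_of_flat_local' [IsDomain R] [IsDiscreteValuationRing R]
    [IsDomain S] [IsNoetherianRing S]
    (h : (maximalIdeal R).map (algebraMap R S) = maximalIdeal S) :
    IsDiscreteValuationRing S := by
  obtain ⟨t, ht⟩ := IsDiscreteValuationRing.exists_irreducible R
  have hm : maximalIdeal S = Ideal.span {algebraMap R S t} := by
    rw [← h, ht.maximalIdeal_eq, Ideal.map_span, Set.image_singleton]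
  have hnf : ¬ IsField S := by
    rw [isField_iff_maximalIdeal_eq, hm, Ideal.span_singleton_eq_bot]
    intro h0
    exact ht.ne_zero
      (algebraMap_injective_of_flat_local (R := R) (S := S) (h0.trans (map_zero _).symm))
  have hp : (maximalIdeal S).IsPrincipal := ⟨⟨algebraMap R S t, hm⟩⟩
  exact ((IsDiscreteValuationRing.TFAE S hnf).out 4 0).mp hp

end Ascent

end Fermat.Agent.S26lib.FinMap
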