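/-
S26lib / FinMap / DvrPt  (helper1)  --  Project K (S26), block (P5b)

**Points with a discrete valuation ring as local ring, along a flat unramified morphism.**

`φ : X ⟶ Y` flat, formally unramified, locally of finite type (e.g. étale), `x : X`:
* `stalkMap_map_maximalIdeal` : `𝔪_{φ x} O_{X,x} = 𝔪_x`;
* `isDiscreteValuationRing_stalk_map` : `O_{X,x}` a DVR ⟹ `O_{Y,φ x}` a DVR;
* `isDiscreteValuationRing_stalk_of_map` : `O_{Y,φ x}` a DVR, `X` locally noetherian ⟹ `O_{X,x}` a DVR;
* `addVal_stalkMap` : `v_x (φ^# a) = v_{φ x} a`   (ramification index `1`);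
* `irreducible_stalkMap` : uniformizers map to uniformizers.
-/
import Mathlib
import Fermat.Agent.S26lib.FinMap.Dvr

set_option autoImplicit false
set_option linter.unusedSectionVars false
set_option linter.style.haveILetI false
set_option linter.overlappingInstances false

noncomputable section

namespace Fermat.Agent.S26lib.FinMap

open AlgebraicGeometry CategoryTheory TopologicalSpace IsLocalRing

universe u

variable {X Y : Scheme.{u}} (φ : X ⟶ Y)

/-- `𝔪_{φ x} O_{X,x} = 𝔪_x` for a formally unramified morphism locally of finite type -/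
theorem stalkMap_map_maximalIdeal [FormallyUnramified φ] [LocallyOfFiniteType φ] (x : X) :
    (maximalIdeal (Y.presheaf.stalk (φ x))).map (φ.stalkMap x).hom =
      maximalIdeal (X.presheaf.stalk x) := by
  algebraize [(φ.stalkMap x).hom]
  have : IsLocalHom (algebraMap (Y.presheaf.stalk (φ x)) (X.presheaf.stalk x)) :=
    inferInstanceAs <| IsLocalHom (φ.stalkMap x).hom
  have : Algebra.EssFiniteType (Y.presheaf.stalk (φ x)) (X.presheaf.stalk x) := by
    rw [← RingHom.essFiniteType_algebraMap, RingHom.algebraMap_toAlgebra]
    exact LocallyOfFiniteType.stalkMap φ x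
  have : Algebra.FormallyUnramified (Y.presheaf.stalk (φ x)) (X.presheaf.stalk x) := by
    rw [← RingHom.formallyUnramified_algebraMap, RingHom.algebraMap_toAlgebra]
    exact FormallyUnramified.stalkMap φ x
  exact Algebra.FormallyUnramified.map_maximalIdeal

variable [IsIntegral X] [IsIntegral Y] [Flat φ] [FormallyUnramified φ] [LocallyOfFiniteType φ]

/-- **the image of a DVR point is a DVR point** -/
theorem isDiscreteValuationRing_stalk_map (x : X)
    [IsDiscreteValuationRing (X.presheaf.stalk x)] :
    IsDiscreteValuationRing (Y.presheaf.stalk (φ x)) := by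
  have hm := stalkMap_map_maximalIdeal φ x
  algebraize [(φ.stalkMap x).hom]
  have : IsLocalHom (algebraMap (Y.presheaf.stalk (φ x)) (X.presheaf.stalk x)) :=
    inferInstanceAs <| IsLocalHom (φ.stalkMap x).hom
  have : Module.Flat (Y.presheaf.stalk (φ x)) (X.presheaf.stalk x) := Flat.stalkMap φ x
  exact isDiscreteValuationRing_of_flat_local (S := X.presheaf.stalk x) hm

/-- **a point over a DVR point is a DVR point** (`X` locally noetherian) -/
theorem isDiscreteValuationRing_stalk_of_map [IsLocallyNoetherian X] (x : X)
    [IsDiscreteValuationRing (Y.presheaf.stalk (φ x))] :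
    IsDiscreteValuationRing (X.presheaf.stalk x) := by
  have hm := stalkMap_map_maximalIdeal φ x
  algebraize [(φ.stalkMap x).hom]
  have : IsLocalHom (algebraMap (Y.presheaf.stalk (φ x)) (X.presheaf.stalk x)) :=
    inferInstanceAs <| IsLocalHom (φ.stalkMap x).hom
  have : Module.Flat (Y.presheaf.stalk (φ x)) (X.presheaf.stalk x) := Flat.stalkMap φ x
  exact isDiscreteValuationRing_of_flat_local' (R := Y.presheaf.stalk (φ x)) hm

/-- **ramification index one** -/
theorem addVal_stalkMap (x : X) [IsDiscreteValuationRing (X.presheaf.stalk x)]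
    [IsDiscreteValuationRing (Y.presheaf.stalk (φ x))] (a : Y.presheaf.stalk (φ x)) :
    IsDiscreteValuationRing.addVal (X.presheaf.stalk x) (φ.stalkMap x a) =
      IsDiscreteValuationRing.addVal (Y.presheaf.stalk (φ x)) a := by
  have hm := stalkMap_map_maximalIdeal φ x
  algebraize [(φ.stalkMap x).hom]
  have : IsLocalHom (algebraMap (Y.presheaf.stalk (φ x)) (X.presheaf.stalk x)) :=
    inferInstanceAs <| IsLocalHom (φ.stalkMap x).hom
  have : Module.Flat (Y.presheaf.stalk (φ x)) (X.presheaf.stalk x) := Flat.stalkMap φ x
  exact addVal_map_of_flat_local hm a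

/-- uniformizers map to uniformizers -/
theorem irreducible_stalkMap (x : X) [IsDiscreteValuationRing (X.presheaf.stalk x)]
    [IsDiscreteValuationRing (Y.presheaf.stalk (φ x))] {t : Y.presheaf.stalk (φ x)}
    (ht : Irreducible t) : Irreducible (φ.stalkMap x t) := by
  have hm := stalkMap_map_maximalIdeal φ x
  algebraize [(φ.stalkMap x).hom]
  have : IsLocalHom (algebraMap (Y.presheaf.stalk (φ x)) (X.presheaf.stalk x)) :=
    inferInstanceAs <| IsLocalHom (φ.stalkMap x).hom
  have : Module.Flat (Y.presheaf.stalk (φ x)) (X.presheaf.stalk x) := Flat.stalkMap φ x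
  exact irreducible_map_of_flat_local hm ht

/-- the local homomorphisms are injective -/
theorem stalkMap_injective (x : X) : Function.Injective (φ.stalkMap x) := by
  algebraize [(φ.stalkMap x).hom]
  have : IsLocalHom (algebraMap (Y.presheaf.stalk (φ x)) (X.presheaf.stalk x)) :=
    inferInstanceAs <| IsLocalHom (φ.stalkMap x).hom
  have : Module.Flat (Y.presheaf.stalk (φ x)) (X.presheaf.stalk x) := Flat.stalkMap φ x
  exact algebraMap_injective_of_flat_local
    (R := Y.presheaf.stalk (φ x)) (S := X.presheaf.stalk x)

end Fermat.Agent.S26lib.FinMap
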