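/-
S26lib / FinMap / Finite  (helper1)  --  Project K (S26), block (P5b)

**The function field extension of a finite (unramified) dominant morphism.**

* `finite_ffMap` : `φ` finite dominant ⟹ `K(X)` is a finite extension of `K(Y)`;
* `formallyUnramified_ffMap`, `isSeparable_ffMap` : `φ` moreover formally unramified (e.g. étale)
  ⟹ `K(X)/K(Y)` is separable;
* `finiteDimensional_fieldRange_of`, `isSeparable_fieldRange_of` : the same statements in the
  `ν.fieldRange` form of `S26lib/Iface.lean` (`FinMapHyp.finite`, `FinMapHyp.separable`).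
-/
import Mathlib
import Fermat.Agent.S26lib.FinMap.FFMap

set_option autoImplicit false
set_option linter.unusedSectionVars false
set_option linter.style.haveILetI false
set_option linter.overlappingInstances false

noncomputable section

namespace Fermat.Agent.S26lib.FinMap

open AlgebraicGeometry CategoryTheory TopologicalSpace Fermat.Agent.S26lib.Quad

open scoped nonZeroDivisors

universe u

section Scheme

variable {X Y : Scheme.{u}} [IsIntegral X] [IsIntegral Y] (φ : X ⟶ Y)

/-- a dominant morphism: preimages of nonempty opens are nonempty -/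
theorem nonempty_preimage [IsDominant φ] (V : Y.Opens) [hV : Nonempty V] :
    Nonempty (φ ⁻¹ᵁ V) := by
  obtain ⟨⟨y, hy⟩⟩ := hV
  obtain ⟨x, hx⟩ := φ.denseRange.exists_mem_open V.isOpen ⟨y, hy⟩
  exact ⟨⟨x, hx⟩⟩

/-- **`K(X)` is finite over `K(Y)`** for a finite dominant morphism -/
theorem finite_ffMap [IsDominant φ] [IsFinite φ] : (ffMap φ).Finite := by
  obtain ⟨y₀⟩ : Nonempty Y := inferInstance
  obtain ⟨_, ⟨V, hV, rfl⟩, hyV, -⟩ :=
    Y.isBasis_affineOpens.exists_subset_of_mem_open (Set.mem_univ y₀) isOpen_univ
  haveI : Nonempty V := ⟨⟨y₀, hyV⟩⟩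
  haveI : Nonempty (φ ⁻¹ᵁ V) := nonempty_preimage φ V
  have hU : IsAffineOpen (φ ⁻¹ᵁ V) := hV.preimage φ
  have hfin := φ.finite_app V hV
  letI : Algebra Γ(Y, V) Γ(X, φ ⁻¹ᵁ V) := (φ.app V).hom.toAlgebra
  haveI : Module.Finite Γ(Y, V) Γ(X, φ ⁻¹ᵁ V) := hfin
  letI : Algebra Y.functionField X.functionField := (ffMap φ).toAlgebra
  letI : Algebra Γ(Y, V) X.functionField :=
    ((ffMap φ).comp (algebraMap Γ(Y, V) Y.functionField)).toAlgebra
  haveI : IsScalarTower Γ(Y, V) Y.functionField X.functionField :=
    IsScalarTower.of_algebraMap_eq' rfl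
  haveI : IsScalarTower Γ(Y, V) Γ(X, φ ⁻¹ᵁ V) X.functionField :=
    IsScalarTower.of_algebraMap_eq fun s => by
      show ffMap φ (Y.germToFunctionField V s) = X.germToFunctionField (φ ⁻¹ᵁ V) (φ.app V s)
      exact ffMap_germ φ V s
  haveI := functionField_isFractionRing_of_isAffineOpen Y V hV
  haveI := functionField_isFractionRing_of_isAffineOpen X (φ ⁻¹ᵁ V) hU
  haveI : FaithfulSMul Γ(Y, V) Γ(X, φ ⁻¹ᵁ V) := by
    rw [faithfulSMul_iff_algebraMap_injective]
    intro a b hab
    have h1 : algebraMap Γ(Y, V) X.functionField a = algebraMap Γ(Y, V) X.functionField b := by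
      rw [IsScalarTower.algebraMap_apply Γ(Y, V) Γ(X, φ ⁻¹ᵁ V) X.functionField, hab,
        ← IsScalarTower.algebraMap_apply]
    rw [IsScalarTower.algebraMap_apply Γ(Y, V) Y.functionField X.functionField,
      IsScalarTower.algebraMap_apply Γ(Y, V) Y.functionField X.functionField] at h1
    exact IsFractionRing.injective Γ(Y, V) Y.functionField (ffMap_injective φ h1)
  haveI : Algebra.IsAlgebraic Γ(Y, V) Γ(X, φ ⁻¹ᵁ V) := Algebra.IsAlgebraic.of_finite _ _
  exact Module.Finite.of_isLocalization Γ(Y, V) Γ(X, φ ⁻¹ᵁ V) (Rₚ := Y.functionField)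
    (Sₚ := X.functionField) (Γ(Y, V))⁰

/-- the comorphism on function fields of a formally unramified dominant morphism is formally
unramified -/
theorem formallyUnramified_ffMap [IsDominant φ] [FormallyUnramified φ] :
    (ffMap φ).FormallyUnramified := by
  unfold ffMap
  refine RingHom.FormallyUnramified.comp ?_ (FormallyUnramified.stalkMap φ (genericPoint X))
  apply RingHom.FormallyUnramified.of_surjective
  intro b
  have h' : genericPoint Y ⤳ φ (genericPoint X) := specializes_of_eq (map_genericPoint φ).symm
  refine ⟨Y.presheaf.stalkSpecializes h' b, ?_⟩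
  have h1 := Y.presheaf.stalkSpecializes_comp (map_genericPoint_specializes φ) h'
  have h2 := Y.presheaf.stalkSpecializes_refl (φ (genericPoint X))
  have h3 : (Y.presheaf.stalkSpecializes h' ≫
      Y.presheaf.stalkSpecializes (map_genericPoint_specializes φ)) b = b := by
    rw [h1]
    exact congrArg (fun ψ => ψ.hom b) h2
  exact h3

/-- **`K(X)/K(Y)` is separable** for a finite, formally unramified (e.g. étale) dominant
morphism -/
theorem isSeparable_ffMap [IsDominant φ] [IsFinite φ] [FormallyUnramified φ] :
    letI := (ffMap φ).toAlgebra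
    Algebra.IsSeparable Y.functionField X.functionField := by
  letI := (ffMap φ).toAlgebra
  haveI : Module.Finite Y.functionField X.functionField := finite_ffMap φ
  haveI : Algebra.FormallyUnramified Y.functionField X.functionField := by
    rw [← RingHom.formallyUnramified_algebraMap, RingHom.algebraMap_toAlgebra]
    exact formallyUnramified_ffMap φ
  exact Algebra.FormallyUnramified.isSeparable _ _

end Scheme

/-! ### the `fieldRange` forms of `Iface.lean` -/

section FieldRange

/-- transport of finiteness along an isomorphism of the base field -/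
theorem finite_of_ringEquiv {A F R : Type*} [Field A] [Field F] [Field R] [Algebra R F]
    (f : A →+* F) (h : f.Finite) (e : A ≃+* R) (he : ∀ a, algebraMap R F (e a) = f a) :
    Module.Finite R F := by
  letI : Algebra A F := f.toAlgebra
  haveI : Module.Finite A F := h
  refine Module.Finite.of_equiv_equiv (A₁ := A) (B₁ := F) e (RingEquiv.refl F) ?_
  ext a
  exact he a

/-- transport of separability along an isomorphism of the base field -/
theorem isSeparable_of_ringEquiv {A F R : Type*} [Field A] [Field F] [Field R] [Algebra R F]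
    (f : A →+* F) (h : letI := f.toAlgebra; Algebra.IsSeparable A F) (e : A ≃+* R)
    (he : ∀ a, algebraMap R F (e a) = f a) :
    Algebra.IsSeparable R F := by
  letI : Algebra A F := f.toAlgebra
  haveI : Algebra.IsSeparable A F := h
  refine Algebra.IsSeparable.of_equiv_equiv (A₁ := A) (B₁ := F) e (RingEquiv.refl F) ?_
  ext a
  exact he a

variable {K F : Type*} [Field K] [Field F] [Algebra K F] (ν : F →ₐ[K] F)

/-- the isomorphism of `F` with the image `ν F` -/
def toFieldRange : F ≃+* ν.fieldRange :=
  (AlgEquiv.ofInjectiveField ν).toRingEquiv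

theorem coe_toFieldRange (x : F) : ((toFieldRange ν x : ν.fieldRange) : F) = ν x := rfl

/-- `FinMapHyp.finite` from the finiteness of the underlying ring homomorphism -/
theorem finiteDimensional_fieldRange_of (f : F →+* F) (hf : ∀ x, ν x = f x) (h : f.Finite) :
    FiniteDimensional ν.fieldRange F :=
  finite_of_ringEquiv f h (toFieldRange ν) hf

/-- `FinMapHyp.separable` from the separability of the underlying ring homomorphism -/
theorem isSeparable_fieldRange_of (f : F →+* F) (hf : ∀ x, ν x = f x)
    (h : letI := f.toAlgebra; Algebra.IsSeparable F F) :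
    Algebra.IsSeparable ν.fieldRange F :=
  isSeparable_of_ringEquiv f h (toFieldRange ν) hf

end FieldRange

end Fermat.Agent.S26lib.FinMap
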