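/-
S26lib / FinMap / Ext  (helper1)  --  Project K (S26), block (P5b)

**Extensions of the valuation ring of a point along a finite dominant morphism are centred on the
fibre.**

`φ : X ⟶ Y` finite dominant, `X`, `Y` integral, `w : Y`, `W` a valuation ring of `K(X)` with
`ν⁻¹ W = O_{Y,w}` (`ν = ffMap φ`).  Then there is a point `z` of `X` with `φ z = w` such that `W`
dominates `O_{X,z}` (`exists_centre_of_valuationSubring`); if `O_{X,z}` is a valuation ring (e.g. a
DVR) then `W = O_{X,z}` (`eq_range_of_dominates`).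
-/
import Mathlib
import Fermat.Agent.S26lib.FinMap.Finite

set_option autoImplicit false
set_option linter.unusedSectionVars false
set_option linter.style.haveILetI false
set_option linter.overlappingInstances false

noncomputable section

namespace Fermat.Agent.S26lib.FinMap

open AlgebraicGeometry CategoryTheory TopologicalSpace IsLocalRing Fermat.Agent.S26lib.Quad

universe u

section Units

variable (X : Scheme.{u}) [IsIntegral X]

/-- units of a local ring of an integral scheme, seen in the function field -/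
theorem isUnit_iff_inv_mem_range (x : X) (a : X.presheaf.stalk x) :
    IsUnit a ↔ a ≠ 0 ∧ (toFF X x a)⁻¹ ∈ (toFF X x).range := by
  constructor
  · intro h
    refine ⟨h.ne_zero, ?_⟩
    obtain ⟨u, rfl⟩ := h
    refine ⟨((u⁻¹ : (X.presheaf.stalk x)ˣ) : X.presheaf.stalk x), ?_⟩
    rw [eq_comm, inv_eq_iff_eq_inv, ← map_units_inv]
    simp
  · rintro ⟨h0, b, hb⟩
    have h1 : toFF X x (a * b) = 1 := by
      rw [map_mul, hb, mul_inv_cancel₀ (toFF_ne_zero X h0)]
    have h2 : a * b = 1 := toFF_injective X x (h1.trans (map_one _).symm)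
    exact IsUnit.of_mul_eq_one _ h2

end Units

section Dominates

variable (X : Scheme.{u}) [IsIntegral X]

/-- a valuation ring of `K(X)` dominating a local ring `O_{X,z}` which is itself a valuation ring
is equal to it -/
theorem eq_range_of_dominates (z : X) [ValuationRing (X.presheaf.stalk z)]
    (W : ValuationSubring X.functionField)
    (h1 : ∀ a : X.presheaf.stalk z, toFF X z a ∈ W)
    (h2 : ∀ a : X.presheaf.stalk z, a ≠ 0 → (toFF X z a)⁻¹ ∈ W → IsUnit a)
    (f : X.functionField) : f ∈ W ↔ f ∈ (toFF X z).range := by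
  constructor
  · intro hf
    rcases ValuationRing.isInteger_or_isInteger (X.presheaf.stalk z) f with ⟨a, ha⟩ | ⟨a, ha⟩
    · exact ⟨a, ha⟩
    · rcases eq_or_ne a 0 with rfl | h0
      · rw [map_zero, eq_comm, inv_eq_zero] at ha
        exact ⟨0, by rw [map_zero, ha]⟩
      · have ha' : toFF X z a = f⁻¹ := ha
        have hu : IsUnit a := h2 a h0 (by rw [ha', inv_inv]; exact hf)
        obtain ⟨u, rfl⟩ := hu
        refine ⟨((u⁻¹ : (X.presheaf.stalk z)ˣ) : X.presheaf.stalk z), ?_⟩
        rw [map_units_inv, ha', inv_inv]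
  · rintro ⟨a, rfl⟩
    exact h1 a

end Dominates

section Centre

variable {X Y : Scheme.{u}} [IsIntegral X] [IsIntegral Y] (φ : X ⟶ Y) [IsDominant φ] [IsFinite φ]

/-- **the centre of an extension of `O_{Y,w}`**: a valuation ring `W` of `K(X)` whose trace on
`K(Y)` is `O_{Y,w}` dominates the local ring of a point `z` over `w`. -/
theorem exists_centre_of_valuationSubring (w : Y) (W : ValuationSubring X.functionField)
    (hW : ∀ b : Y.functionField, ffMap φ b ∈ W ↔ b ∈ (toFF Y w).range) :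
    ∃ z : X, φ z = w ∧ (∀ a : X.presheaf.stalk z, toFF X z a ∈ W) ∧
      (∀ a : X.presheaf.stalk z, a ≠ 0 → (toFF X z a)⁻¹ ∈ W → IsUnit a) := by
  obtain ⟨_, ⟨V, hV, rfl⟩, hwV, -⟩ :=
    Y.isBasis_affineOpens.exists_subset_of_mem_open (Set.mem_univ w) isOpen_univ
  haveI : Nonempty V := ⟨⟨w, hwV⟩⟩
  haveI : Nonempty (φ ⁻¹ᵁ V) := nonempty_preimage φ V
  have hU : IsAffineOpen (φ ⁻¹ᵁ V) := hV.preimage φ
  -- (i) the image of `Γ(V)` lies in `W`
  have hi : ∀ s : Γ(Y, V), ((X.germToFunctionField (φ ⁻¹ᵁ V)).hom.comp (φ.app V).hom) s ∈ W := by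
    intro s
    show X.germToFunctionField (φ ⁻¹ᵁ V) (φ.app V s) ∈ W
    rw [← ffMap_germ φ V s, hW]
    exact ⟨Y.presheaf.germ V w hwV s, Y.algebraMap_germ_eq_germToFunctionField hwV s⟩
  -- (ii) `Γ(φ⁻¹ V)` is integral over `Γ(V)`, hence lies in `W`
  have hii : ∀ b : Γ(X, φ ⁻¹ᵁ V), (X.germToFunctionField (φ ⁻¹ᵁ V)).hom b ∈ W := by
    intro b
    obtain ⟨p, hp, hpb⟩ := (φ.finite_app V hV).to_isIntegral b
    let σ : Γ(Y, V) →+* W :=
      ((X.germToFunctionField (φ ⁻¹ᵁ V)).hom.comp (φ.app V).hom).codRestrict W hi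
    have hβ : IsIntegral W ((X.germToFunctionField (φ ⁻¹ᵁ V)).hom b) := by
      refine ⟨p.map σ, hp.map σ, ?_⟩
      rw [Polynomial.eval₂_map]
      have hcomp : (algebraMap W X.functionField).comp σ =
          (X.germToFunctionField (φ ⁻¹ᵁ V)).hom.comp (φ.app V).hom := by
        ext s; rfl
      rw [hcomp, ← Polynomial.hom_eval₂, hpb, map_zero]
    obtain ⟨y, hy⟩ := IsIntegrallyClosed.isIntegral_iff.mp hβ
    rw [← hy]
    exact y.2
  -- the centre
  let ρ : Γ(X, φ ⁻¹ᵁ V) →+* W := (X.germToFunctionField (φ ⁻¹ᵁ V)).hom.codRestrict W hii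
  have hρ : ∀ b, ((ρ b : W) : X.functionField) = X.germToFunctionField (φ ⁻¹ᵁ V) b := fun _ => rfl
  let y : PrimeSpectrum Γ(X, φ ⁻¹ᵁ V) := ⟨(maximalIdeal W).comap ρ, inferInstance⟩
  have hzU : hU.fromSpec y ∈ φ ⁻¹ᵁ V := by
    have hmem : hU.fromSpec y ∈ Set.range hU.fromSpec := Set.mem_range_self y
    rw [hU.range_fromSpec] at hmem
    exact hmem
  letI := TopCat.Presheaf.algebra_section_stalk X.presheaf ⟨hU.fromSpec y, hzU⟩
  haveI hloc : IsLocalization.AtPrime (X.presheaf.stalk (hU.fromSpec y)) y.asIdeal :=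
    hU.isLocalization_stalk' y hzU
  have hgerm : ∀ b : Γ(X, φ ⁻¹ᵁ V), toFF X (hU.fromSpec y)
      (algebraMap Γ(X, φ ⁻¹ᵁ V) (X.presheaf.stalk (hU.fromSpec y)) b) = (ρ b : W) := fun b =>
    X.algebraMap_germ_eq_germToFunctionField hzU b
  -- elements outside the prime are units of `W`
  have hunit : ∀ s : Γ(X, φ ⁻¹ᵁ V), s ∈ y.asIdeal.primeCompl → IsUnit (ρ s) := by
    intro s hs
    by_contra hnu
    exact hs ((mem_maximalIdeal _).mpr hnu)
  -- (a) `O_z ⊆ W`
  have ha : ∀ a : X.presheaf.stalk (hU.fromSpec y), toFF X (hU.fromSpec y) a ∈ W := by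
    intro a
    obtain ⟨b, s, rfl⟩ := IsLocalization.exists_mk'_eq y.asIdeal.primeCompl a
    obtain ⟨us, hus⟩ := hunit s s.2
    have h1 : toFF X (hU.fromSpec y) (IsLocalization.mk' _ b s) * (ρ s : W) = (ρ b : W) := by
      rw [← hgerm, ← hgerm, ← map_mul, IsLocalization.mk'_spec]
    have h2 : toFF X (hU.fromSpec y) (IsLocalization.mk' _ b s) =
        ((ρ b * (us⁻¹ : Wˣ) : W) : X.functionField) := by
      have h3 : ((ρ s : W) : X.functionField) * (((us⁻¹ : Wˣ) : W) : X.functionField) = 1 := by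
        rw [← hus]
        exact_mod_cast congrArg (fun t : W => (t : X.functionField)) (Units.mul_inv us)
      calc toFF X (hU.fromSpec y) (IsLocalization.mk' _ b s)
          = toFF X (hU.fromSpec y) (IsLocalization.mk' _ b s) *
              (((ρ s : W) : X.functionField) * (((us⁻¹ : Wˣ) : W) : X.functionField)) := by
            rw [h3, mul_one]
        _ = ((ρ b * (us⁻¹ : Wˣ) : W) : X.functionField) := by
            rw [← mul_assoc, h1]; rfl
    rw [h2]
    exact (ρ b * (us⁻¹ : Wˣ) : W).2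
  -- (b) `W` dominates `O_z`
  have hb : ∀ a : X.presheaf.stalk (hU.fromSpec y), a ≠ 0 →
      (toFF X (hU.fromSpec y) a)⁻¹ ∈ W → IsUnit a := by
    intro a ha0 hainv
    obtain ⟨b, s, rfl⟩ := IsLocalization.exists_mk'_eq y.asIdeal.primeCompl a
    rw [IsLocalization.AtPrime.isUnit_mk'_iff (X.presheaf.stalk (hU.fromSpec y)) y.asIdeal]
    intro hbq
    -- `ρ b ∈ 𝔪_W`, but `ρ b = toFF a * ρ s` is a unit of `W`
    have h1 : toFF X (hU.fromSpec y) (IsLocalization.mk' _ b s) * (ρ s : W) = (ρ b : W) := by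
      rw [← hgerm, ← hgerm, ← map_mul, IsLocalization.mk'_spec]
    have hne : toFF X (hU.fromSpec y) (IsLocalization.mk' _ b s) ≠ 0 := toFF_ne_zero X ha0
    obtain ⟨us, hus⟩ := hunit s s.2
    have hbu : IsUnit (ρ b) := by
      refine IsUnit.of_mul_eq_one (⟨_, hainv⟩ * (us⁻¹ : Wˣ) : W) ?_
      apply Subtype.ext
      show ((ρ b : W) : X.functionField) *
        ((toFF X (hU.fromSpec y) (IsLocalization.mk' _ b s))⁻¹ * (((us⁻¹ : Wˣ) : W) : X.functionField))
          = 1
      have h3 : ((ρ s : W) : X.functionField) * (((us⁻¹ : Wˣ) : W) : X.functionField) = 1 := by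
        rw [← hus]
        exact_mod_cast congrArg (fun t : W => (t : X.functionField)) (Units.mul_inv us)
      rw [← h1, mul_comm (toFF X (hU.fromSpec y) (IsLocalization.mk' _ b s)), mul_assoc,
        ← mul_assoc _ _ (((us⁻¹ : Wˣ) : W) : X.functionField), mul_inv_cancel₀ hne, one_mul, h3]
    exact ((mem_maximalIdeal _).mp hbq) hbu
  refine ⟨hU.fromSpec y, ?_, ha, hb⟩
  -- the centre lies over `w`
  have hφz : φ (hU.fromSpec y) ∈ V := hzU
  have key : hV.primeIdealOf ⟨φ (hU.fromSpec y), hφz⟩ = hV.primeIdealOf ⟨w, hwV⟩ := by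
    rw [hV.primeIdealOf_eq_map_closedPoint, hV.primeIdealOf_eq_map_closedPoint]
    apply PrimeSpectrum.ext
    ext s
    show Y.presheaf.germ V (φ (hU.fromSpec y)) hφz s ∈ maximalIdeal _ ↔
      Y.presheaf.germ V w hwV s ∈ maximalIdeal _
    rw [mem_maximalIdeal, mem_maximalIdeal, mem_nonunits_iff, mem_nonunits_iff, not_iff_not]
    -- left: unit at `φ z` iff unit at `z` after the local homomorphism
    have hL : IsUnit (Y.presheaf.germ V (φ (hU.fromSpec y)) hφz s) ↔
        IsUnit (X.presheaf.germ (φ ⁻¹ᵁ V) (hU.fromSpec y) hzU (φ.app V s)) := by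
      rw [← φ.germ_stalkMap_apply V (hU.fromSpec y) hzU s]
      exact (isUnit_map_iff (φ.stalkMap (hU.fromSpec y)).hom _).symm
    rw [hL, isUnit_iff_inv_mem_range X, isUnit_iff_inv_mem_range Y]
    have e1 : toFF X (hU.fromSpec y) (X.presheaf.germ (φ ⁻¹ᵁ V) (hU.fromSpec y) hzU (φ.app V s)) =
        ffMap φ (Y.germToFunctionField V s) := by
      rw [ffMap_germ φ V s]
      exact X.algebraMap_germ_eq_germToFunctionField hzU _
    have e2 : toFF Y w (Y.presheaf.germ V w hwV s) = Y.germToFunctionField V s :=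
      Y.algebraMap_germ_eq_germToFunctionField hwV s
    rw [e1, e2]
    have hne : X.presheaf.germ (φ ⁻¹ᵁ V) (hU.fromSpec y) hzU (φ.app V s) ≠ 0 ↔
        Y.presheaf.germ V w hwV s ≠ 0 := by
      rw [← (toFF_injective X (hU.fromSpec y)).ne_iff' (map_zero _),
        ← (toFF_injective Y w).ne_iff' (map_zero _), e1, e2]
      exact (ffMap_injective φ).ne_iff' (map_zero _)
    rw [hne]
    constructor
    · rintro ⟨h0, a, ha'⟩
      refine ⟨h0, ?_⟩
      have hmem := ha a
      rw [ha', ← map_inv₀, hW] at hmem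
      exact hmem
    · rintro ⟨h0, hmem⟩
      refine ⟨h0, ?_⟩
      have hWmem : (ffMap φ (Y.germToFunctionField V s))⁻¹ ∈ W := by
        rw [← map_inv₀, hW]; exact hmem
      have hg0 : X.presheaf.germ (φ ⁻¹ᵁ V) (hU.fromSpec y) hzU (φ.app V s) ≠ 0 := hne.mpr h0
      have hu := hb _ hg0 (by rw [e1]; exact hWmem)
      have h4 := ((isUnit_iff_inv_mem_range X _ _).mp hu).2
      rw [e1] at h4
      exact h4
  have := congrArg hV.fromSpec key
  rw [hV.fromSpec_primeIdealOf, hV.fromSpec_primeIdealOf] at this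
  exact this

end Centre

end Fermat.Agent.S26lib.FinMap
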