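/-
S26lib / FinMap / Main  (helper1)  --  Project K (S26), block (P5b)

**The generic form of `FinMapHyp.ord_comp` and `FinMapHyp.ext`** for a finite, flat, formally
unramified (e.g. finite étale) dominant morphism `φ : X ⟶ Y` of integral schemes, `ν := ffMap φ`:

* `addVal_ffMap` : for `z : X` with `O_{X,z}` a DVR (then `O_{Y,φ z}` is a DVR) and `a ∈ O_{Y,φ z}`:
  `v_z (ν a) = v_{φ z} (a)`  -- ramification index `1`, in the form
  `ν (toFF a) = toFF (φ^# a)` (`toFF_stalkMap_ffMap`) + `addVal_stalkMap`;
* `exists_dvr_point_of_valuationSubring` : `X` locally noetherian, `w : Y` with `O_{Y,w}` a DVR, `W` a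
  valuation ring of `K(X)` with `ν⁻¹ W = O_{Y,w}`  ⟹  `W = O_{X,z}` for a point `z` over `w` with
  `O_{X,z}` a DVR.
-/
import Mathlib
import Fermat.Agent.S26lib.FinMap.Ext
import Fermat.Agent.S26lib.FinMap.DvrPt

set_option autoImplicit false
set_option linter.unusedSectionVars false
set_option linter.style.haveILetI false
set_option linter.overlappingInstances false

noncomputable section

namespace Fermat.Agent.S26lib.FinMap

open AlgebraicGeometry CategoryTheory TopologicalSpace IsLocalRing Fermat.Agent.S26lib.Quad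

universe u

variable {X Y : Scheme.{u}} [IsIntegral X] [IsIntegral Y] (φ : X ⟶ Y)
  [Flat φ] [FormallyUnramified φ] [LocallyOfFiniteType φ]

/-- **(P5b), `ext`**: every valuation ring of `K(X)` extending (through `ν`) the DVR of a point `w` of
`Y` is the DVR of a point `z` of `X` over `w`. -/
theorem exists_dvr_point_of_valuationSubring [IsDominant φ] [IsFinite φ] [IsLocallyNoetherian X]
    (w : Y) [IsDiscreteValuationRing (Y.presheaf.stalk w)]
    (W : ValuationSubring X.functionField)
    (hW : ∀ b : Y.functionField, ffMap φ b ∈ W ↔ b ∈ (toFF Y w).range) :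
    ∃ z : X, φ z = w ∧ IsDiscreteValuationRing (X.presheaf.stalk z) ∧
      ∀ f : X.functionField, f ∈ W ↔ f ∈ (toFF X z).range := by
  obtain ⟨z, rfl, h1, h2⟩ := exists_centre_of_valuationSubring φ w W hW
  haveI : IsDiscreteValuationRing (X.presheaf.stalk z) :=
    isDiscreteValuationRing_stalk_of_map φ z
  exact ⟨z, rfl, inferInstance, eq_range_of_dominates X z W h1 h2⟩

/-- **(P5b), `ord_comp` with `e = 1`**: `v_z (ν (a)) = v_{φ z} (a)` for `a ∈ O_{Y, φ z}`, where
`ν (toFF a) = toFF (φ^# a)`. -/
theorem addVal_ffMap [IsDominant φ] (z : X) [IsDiscreteValuationRing (X.presheaf.stalk z)]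
    [IsDiscreteValuationRing (Y.presheaf.stalk (φ z))] (a : Y.presheaf.stalk (φ z)) :
    ffMap φ (toFF Y (φ z) a) = toFF X z (φ.stalkMap z a) ∧
      IsDiscreteValuationRing.addVal (X.presheaf.stalk z) (φ.stalkMap z a) =
        IsDiscreteValuationRing.addVal (Y.presheaf.stalk (φ z)) a :=
  ⟨(toFF_stalkMap_ffMap φ z a).symm, addVal_stalkMap φ z a⟩

end Fermat.Agent.S26lib.FinMap
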