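/-
S26lib / FinMap / OrdComp  (helper1)  --  Project K (S26), block (P5b)

**(P5b) assembled against helper9's `Weil.model` (`S26lib/Weil/Model.lean`).**

* `ordAt_toFF_unit`, `ordAt_toFF_irreducible`, `ordAt_toFF_eq` : helper9's `ordAt P` on the local ring
  `O_{X,P}` is the normalised valuation (`ordAt P (toFF (u * t ^ n)) = n`);
* `imgPt φ P : PrimeDiv Y` : the image of a prime divisor under a flat unramified morphism;
* **`ordAt_ffMap : ordAt P (ffMap φ x) = ordAt (imgPt φ P) x`** (ramification index `1`);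
* **`finMapHyp_of_finite_unramified`** : for a finite, flat, formally unramified (e.g. finite étale)
  dominant `K`-endomorphism `φ` of an integral noetherian `K`-scheme `A`:
  `(Weil.model f).FinMapHyp (nuHom φ hφ h) (imgPt φ) (fun _ => 1)`.
-/
import Mathlib
import Fermat.Agent.S26lib.FinMap.Main
import Fermat.Agent.S26lib.FinMap.Bridge
import Fermat.Agent.S26lib.Weil.Model

set_option autoImplicit false
set_option linter.unusedSectionVars false
set_option linter.style.haveILetI false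
set_option linter.overlappingInstances false

noncomputable section

namespace Fermat.Agent.S26lib.FinMap

open AlgebraicGeometry CategoryTheory TopologicalSpace IsLocalRing Fermat.Agent.S26lib.Quad
  Fermat.Agent.S26lib.Weil

universe u

section Ord

variable {X : Scheme.{u}} [IsIntegral X] [IsLocallyNoetherian X]

theorem ordAt_one (P : PrimeDiv X) : ordAt P (1 : X.functionField) = 0 := by
  have h := ordAt_mul P (one_ne_zero : (1 : X.functionField) ≠ 0) one_ne_zero
  rw [one_mul] at h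
  omega

theorem ordAt_toFF_unit (P : PrimeDiv X) (u : (X.presheaf.stalk P.1)ˣ) :
    ordAt P (toFF X P.1 u) = 0 := by
  have h1 : toFF X P.1 (u : X.presheaf.stalk P.1) ≠ 0 := toFF_ne_zero X u.ne_zero
  have h2 : toFF X P.1 ((u⁻¹ : (X.presheaf.stalk P.1)ˣ) : X.presheaf.stalk P.1) ≠ 0 :=
    toFF_ne_zero X (u⁻¹).ne_zero
  have hmul := ordAt_mul P h1 h2
  rw [← map_mul, Units.mul_inv, map_one, ordAt_one] at hmul
  have p1 : 0 ≤ ordAt P (toFF X P.1 u) := (ordAt_nonneg_iff P h1).mpr ⟨_, rfl⟩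
  have p2 : 0 ≤ ordAt P (toFF X P.1 ((u⁻¹ : (X.presheaf.stalk P.1)ˣ) : X.presheaf.stalk P.1)) :=
    (ordAt_nonneg_iff P h2).mpr ⟨_, rfl⟩
  omega

theorem ordAt_toFF_irreducible (P : PrimeDiv X) {t : X.presheaf.stalk P.1} (ht : Irreducible t) :
    ordAt P (toFF X P.1 t) = 1 := by
  have := P.2
  have h0 : toFF X P.1 t ≠ 0 := toFF_ne_zero X ht.ne_zero
  rw [ordAt_eq_iff P h0, Ring.ordFrac_irreducible ht]
  rfl

theorem ordAt_pow (P : PrimeDiv X) {x : X.functionField} (hx : x ≠ 0) (n : ℕ) :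
    ordAt P (x ^ n) = n * ordAt P x := by
  induction n with
  | zero => simp [ordAt_one]
  | succ k ih =>
    rw [pow_succ, ordAt_mul P (pow_ne_zero k hx) hx, ih]
    push_cast
    ring

/-- `ordAt P` on the local ring is the normalised discrete valuation -/
theorem ordAt_toFF_eq (P : PrimeDiv X) {t : X.presheaf.stalk P.1} (ht : Irreducible t)
    (u : (X.presheaf.stalk P.1)ˣ) (n : ℕ) :
    ordAt P (toFF X P.1 ((u : X.presheaf.stalk P.1) * t ^ n)) = n := by
  have h1 : toFF X P.1 (u : X.presheaf.stalk P.1) ≠ 0 := toFF_ne_zero X u.ne_zero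
  have h2 : toFF X P.1 t ≠ 0 := toFF_ne_zero X ht.ne_zero
  rw [map_mul, map_pow, ordAt_mul P h1 (pow_ne_zero n h2), ordAt_toFF_unit, ordAt_pow P h2,
    ordAt_toFF_irreducible P ht]
  ring

end Ord

section Map

variable {X Y : Scheme.{u}} [IsIntegral X] [IsIntegral Y] [IsLocallyNoetherian X]
  [IsLocallyNoetherian Y] (φ : X ⟶ Y) [Flat φ] [FormallyUnramified φ] [LocallyOfFiniteType φ]

/-- the image of a prime divisor under a flat unramified morphism -/
def imgPt (P : PrimeDiv X) : PrimeDiv Y :=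
  ⟨φ P.1, haveI := P.2; isDiscreteValuationRing_stalk_map φ P.1⟩

@[simp] theorem imgPt_val (P : PrimeDiv X) : (imgPt φ P).1 = φ P.1 := rfl

/-- on the local ring: `ord_P (ν (a)) = ord_{φ P} (a)` -/
theorem ordAt_ffMap_toFF [IsDominant φ] (P : PrimeDiv X) (a : Y.presheaf.stalk (φ P.1)) :
    ordAt P (ffMap φ (toFF Y (φ P.1) a)) = ordAt (imgPt φ P) (toFF Y (φ P.1) a) := by
  rcases eq_or_ne a 0 with rfl | ha
  · rw [map_zero, map_zero, ordAt_zero, ordAt_zero]
  have hP := P.2
  have hQ := (imgPt φ P).2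
  change IsDiscreteValuationRing (Y.presheaf.stalk (φ P.1)) at hQ
  obtain ⟨t, ht⟩ := IsDiscreteValuationRing.exists_irreducible (Y.presheaf.stalk (φ P.1))
  obtain ⟨n, u, hu⟩ := IsDiscreteValuationRing.eq_unit_mul_pow_irreducible ha ht
  have ht' : Irreducible (φ.stalkMap P.1 t) := irreducible_stalkMap φ P.1 ht
  rw [← toFF_stalkMap_ffMap, hu, map_mul, map_pow]
  have e1 := ordAt_toFF_eq P ht' (Units.map (φ.stalkMap P.1).hom.toMonoidHom u) n
  have e2 := ordAt_toFF_eq (imgPt φ P) (t := t) ht u n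
  exact e1.trans e2.symm

/-- **(P5b), `ord_comp` with `e = 1`** -/
theorem ordAt_ffMap [IsDominant φ] (P : PrimeDiv X) (x : Y.functionField) :
    ordAt P (ffMap φ x) = ordAt (imgPt φ P) x := by
  rcases eq_or_ne x 0 with rfl | hx
  · rw [map_zero, ordAt_zero, ordAt_zero]
  obtain ⟨a, b, hb, rfl⟩ := IsFractionRing.div_surjective (A := Y.presheaf.stalk (φ P.1)) x
  have hb0 : b ≠ 0 := nonZeroDivisors.ne_zero hb
  have hfb : toFF Y (φ P.1) b ≠ 0 := toFF_ne_zero Y hb0
  have ha0 : a ≠ 0 := by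
    rintro rfl
    exact hx (by rw [map_zero, zero_div])
  have hfa : toFF Y (φ P.1) a ≠ 0 := toFF_ne_zero Y ha0
  have hx' : toFF Y (φ P.1) a / toFF Y (φ P.1) b ≠ 0 := hx
  -- `x * b = a`
  have hrel : toFF Y (φ P.1) a / toFF Y (φ P.1) b * toFF Y (φ P.1) b = toFF Y (φ P.1) a :=
    div_mul_cancel₀ _ hfb
  have h1 := ordAt_mul (imgPt φ P) hx' hfb
  rw [hrel] at h1
  have hν : ∀ {y : Y.functionField}, y ≠ 0 → ffMap φ y ≠ 0 := fun hy =>
    (map_ne_zero_iff _ (ffMap_injective φ)).mpr hy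
  have h2 := ordAt_mul P (hν hx') (hν hfb)
  rw [← map_mul, hrel, ordAt_ffMap_toFF, ordAt_ffMap_toFF] at h2
  change ordAt P (ffMap φ (toFF Y (φ P.1) a / toFF Y (φ P.1) b)) =
    ordAt (imgPt φ P) (toFF Y (φ P.1) a / toFF Y (φ P.1) b)
  omega

end Map

section Assembly

variable {K : Type u} [Field K] {A : Scheme.{u}} [IsIntegral A] [IsNoetherian A]
  (f : A ⟶ Spec (CommRingCat.of K)) (φ : A ⟶ A) (hφ : φ ≫ f = f) (h : DenseRange φ)
  [IsFinite φ] [Flat φ] [FormallyUnramified φ] [LocallyOfFiniteType φ]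

/-- **(P5b)**: the hypotheses `FinMapHyp` of the growth theorem for a finite, flat, formally
unramified (e.g. finite étale) dominant `K`-endomorphism of an integral noetherian `K`-scheme. -/
theorem finMapHyp_of_finite_unramified :
    letI := kAlgebraFF f
    (Weil.model f).FinMapHyp (nuHom φ hφ h) (imgPt φ) (fun _ => 1) := by
  letI := kAlgebraFF f
  haveI : IsDominant φ := ⟨h⟩
  have hν : ∀ x, nuHom φ hφ h x = ffMap φ x := fun _ => rfl
  refine ⟨?_, ?_, fun _ => Nat.one_pos, ?_, ?_⟩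
  · exact finiteDimensional_fieldRange_of (nuHom φ hφ h) (ffMap φ) hν (finite_ffMap φ)
  · exact isSeparable_fieldRange_of (nuHom φ hφ h) (ffMap φ) hν (isSeparable_ffMap φ)
  · intro P' x
    show ordAt P' (nuHom φ hφ h x) = ((1 : ℕ) : ℤ) * ordAt (imgPt φ P') x
    rw [hν, ordAt_ffMap, Nat.cast_one, one_mul]
  · intro P W hW
    haveI := P.2
    have hW' : ∀ b : A.functionField, ffMap φ b ∈ W ↔ b ∈ (toFF A P.1).range := by
      intro b
      rw [← hν, hW b, Weil.mem_integers_iff f P b]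
      rfl
    obtain ⟨z, hz, hdvr, hrange⟩ := exists_dvr_point_of_valuationSubring φ P.1 W hW'
    refine ⟨⟨z, hdvr⟩, Subtype.ext hz, fun x => ?_⟩
    rw [hrange x, Weil.mem_integers_iff f ⟨z, hdvr⟩ x]
    rfl

end Assembly

end Fermat.Agent.S26lib.FinMap
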